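import Mathlib.Analysis.InnerProductSpace.SingularValues
import Mathlib.Analysis.InnerProductSpace.PiL2
import Mathlib.Analysis.InnerProductSpace.Adjoint
import Mathlib.MeasureTheory.Constructions.BorelSpace.ContinuousLinearMap
import Mathlib.Analysis.SpecialFunctions.Log.Basic

/-!
# Singular values of products

The `i`-th singular value is the largest lower bound of a map on a subspace of dimension `i + 1`;
hence it is `1`-Lipschitz and falls under compressions.  Writing a compression of a product as a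
product of square maps, the product of the `p` largest singular values is submultiplicative.
-/

set_option autoImplicit false

noncomputable section

namespace FA.Oseledets

open Module Finset
open scoped RealInnerProductSpace

variable {F G : Type*} [NormedAddCommGroup F] [InnerProductSpace ℝ F] [FiniteDimensional ℝ F]
  [NormedAddCommGroup G] [InnerProductSpace ℝ G] [FiniteDimensional ℝ G]

/-- An orthonormal basis diagonalising `adjoint T * T`, by decreasing singular values. -/
def svBasis (T : F →ₗ[ℝ] G) : OrthonormalBasis (Fin (finrank ℝ F)) ℝ F :=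
  T.isSymmetric_adjoint_comp_self.eigenvectorBasis rfl

theorem inner_map_svBasis (T : F →ₗ[ℝ] G) (i : Fin (finrank ℝ F)) (v : F) :
    ⟪T (svBasis T i), T v⟫ = T.singularValues i ^ 2 * ⟪svBasis T i, v⟫ := by
  rw [← LinearMap.adjoint_inner_left, T.sq_singularValues_fin rfl i, ← LinearMap.comp_apply,
    svBasis, T.isSymmetric_adjoint_comp_self.apply_eigenvectorBasis rfl i, real_inner_smul_left]
  rfl

theorem norm_sq_map (T : F →ₗ[ℝ] G) (v : F) :
    ‖T v‖ ^ 2 = ∑ i : Fin (finrank ℝ F), T.singularValues i ^ 2 * ⟪svBasis T i, v⟫ ^ 2 := by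
  rw [← real_inner_self_eq_norm_sq]
  have h : T v = ∑ i, ⟪svBasis T i, v⟫ • T (svBasis T i) := by
    conv_lhs => rw [← (svBasis T).sum_repr' v]
    rw [map_sum]
    simp only [map_smul]
  nth_rw 1 [h]
  rw [sum_inner]
  refine Finset.sum_congr rfl fun i _ => ?_
  rw [real_inner_smul_left, inner_map_svBasis]
  ring

theorem norm_map_svBasis (T : F →ₗ[ℝ] G) (i : Fin (finrank ℝ F)) :
    ‖T (svBasis T i)‖ = T.singularValues i := by
  refine (sq_eq_sq₀ (norm_nonneg _) (T.singularValues_nonneg _)).1 ?_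
  rw [← real_inner_self_eq_norm_sq, inner_map_svBasis, real_inner_self_eq_norm_sq,
    (svBasis T).orthonormal.1 i]
  ring

/-- The subspace spanned by the `i + 1` first singular vectors. -/
def topSpace (T : F →ₗ[ℝ] G) (i : Fin (finrank ℝ F)) : Submodule ℝ F :=
  LinearMap.ker (LinearMap.pi fun k : {k : Fin (finrank ℝ F) // i < k} =>
    (innerₛₗ ℝ (svBasis T k.1) : F →ₗ[ℝ] ℝ))

theorem finrank_topSpace (T : F →ₗ[ℝ] G) (i : Fin (finrank ℝ F)) :
    i.val + 1 ≤ finrank ℝ (topSpace T i) := by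
  set f := LinearMap.pi fun k : {k : Fin (finrank ℝ F) // i < k} =>
    (innerₛₗ ℝ (svBasis T k.1) : F →ₗ[ℝ] ℝ)
  have h1 := f.finrank_range_add_finrank_ker
  have h2 := Submodule.finrank_le (LinearMap.range f)
  have h3 : Fintype.card {k : Fin (finrank ℝ F) // i < k} = finrank ℝ F - 1 - i.val := by
    rw [Fintype.card_subtype, Finset.filter_lt_eq_Ioi, Fin.card_Ioi]
  rw [Module.finrank_pi, h3] at h2
  show i.val + 1 ≤ finrank ℝ (LinearMap.ker f)
  have := i.2
  omega

theorem mul_norm_le_of_mem_topSpace (T : F →ₗ[ℝ] G) (i : Fin (finrank ℝ F)) {v : F}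
    (hv : v ∈ topSpace T i) : T.singularValues i * ‖v‖ ≤ ‖T v‖ := by
  refine (sq_le_sq₀ (mul_nonneg (T.singularValues_nonneg _) (norm_nonneg _)) (norm_nonneg _)).1 ?_
  rw [mul_pow, norm_sq_map, ← (svBasis T).sum_sq_inner_right v, mul_sum]
  refine Finset.sum_le_sum fun k _ => ?_
  by_cases hk : i < k
  · have h0 : ⟪svBasis T k, v⟫ = 0 := congrFun (LinearMap.mem_ker.1 hv) ⟨k, hk⟩
    simp [h0]
  · exact mul_le_mul_of_nonneg_right (pow_le_pow_left₀ (T.singularValues_nonneg _)
      (T.singularValues_antitone (show (k : ℕ) ≤ i from not_lt.1 hk)) 2) (sq_nonneg _)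

/-- A lower bound on a subspace of dimension `i + 1` is at most the `i`-th singular value. -/
theorem le_singularValue (T : F →ₗ[ℝ] G) (i : Fin (finrank ℝ F)) (W : Submodule ℝ F)
    (hW : i.val < finrank ℝ W) {c : ℝ} (hc : ∀ w ∈ W, c * ‖w‖ ≤ ‖T w‖) :
    c ≤ T.singularValues i := by
  set f := LinearMap.pi fun k : {k : Fin (finrank ℝ F) // k < i} =>
    ((innerₛₗ ℝ (svBasis T k.1) : F →ₗ[ℝ] ℝ) ∘ₗ W.subtype)
  have h3 : finrank ℝ ({k : Fin (finrank ℝ F) // k < i} → ℝ) < finrank ℝ W := by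
    rw [Module.finrank_pi, Fintype.card_subtype, Finset.filter_gt_eq_Iio, Fin.card_Iio]
    exact hW
  obtain ⟨w, hw, hw0⟩ := (Submodule.ne_bot_iff _).1 (LinearMap.ker_ne_bot_of_finrank_lt
    (f := f) h3)
  have hpos : 0 < ‖(w : F)‖ := norm_pos_iff.2 fun h => hw0 (Subtype.ext h)
  refine le_of_mul_le_mul_right ((hc w w.2).trans ?_) hpos
  refine (sq_le_sq₀ (norm_nonneg _) (mul_nonneg (T.singularValues_nonneg _) (norm_nonneg _))).1 ?_
  rw [mul_pow, norm_sq_map, ← (svBasis T).sum_sq_inner_right (w : F), mul_sum]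
  refine Finset.sum_le_sum fun k _ => ?_
  by_cases hk : k < i
  · have h0 : ⟪svBasis T k, (w : F)⟫ = 0 := congrFun (LinearMap.mem_ker.1 hw) ⟨k, hk⟩
    simp [h0]
  · exact mul_le_mul_of_nonneg_right (pow_le_pow_left₀ (T.singularValues_nonneg _)
      (T.singularValues_antitone (show (i : ℕ) ≤ k from not_lt.1 hk)) 2) (sq_nonneg _)

/-- The square of the factor by which `T` scales volumes. -/
def volSq (T : F →ₗ[ℝ] G) : ℝ := LinearMap.det (LinearMap.adjoint T ∘ₗ T)

theorem volSq_eq_prod (T : F →ₗ[ℝ] G) :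
    volSq T = ∏ i : Fin (finrank ℝ F), T.singularValues i ^ 2 := by
  rw [volSq, T.isSymmetric_adjoint_comp_self.det_eq_prod_eigenvalues rfl]
  exact Finset.prod_congr rfl fun i _ => (T.sq_singularValues_fin rfl i).symm

theorem volSq_comp (T : F →ₗ[ℝ] G) (R : F →ₗ[ℝ] F) :
    volSq (T ∘ₗ R) = volSq T * volSq R := by
  rw [volSq, volSq, volSq, LinearMap.adjoint_comp,
    show (LinearMap.adjoint R ∘ₗ LinearMap.adjoint T) ∘ₗ T ∘ₗ R =
      LinearMap.adjoint R ∘ₗ (LinearMap.adjoint T ∘ₗ T) ∘ₗ R by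
        simp only [LinearMap.comp_assoc],
    LinearMap.det_comp, LinearMap.det_comp, LinearMap.det_comp]
  ring

variable {H : Type*} [NormedAddCommGroup H] [InnerProductSpace ℝ H] [FiniteDimensional ℝ H]

theorem singularValue_comp_isometry_le (T : G →ₗ[ℝ] H) (U : F →ₗᵢ[ℝ] G)
    (j : Fin (finrank ℝ F)) :
    (T ∘ₗ U.toLinearMap).singularValues j ≤ T.singularValues j := by
  have hle : finrank ℝ F ≤ finrank ℝ G :=
    LinearMap.finrank_le_finrank_of_injective (f := U.toLinearMap) U.injective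
  set S := T ∘ₗ U.toLinearMap
  refine le_singularValue T ⟨j.val, j.2.trans_le hle⟩ ((topSpace S j).map U.toLinearMap) ?_ ?_
  · rw [← (Submodule.equivMapOfInjective _ U.injective (topSpace S j)).finrank_eq]
    exact finrank_topSpace S j
  · rintro _ ⟨w, hw, rfl⟩
    refine le_trans (le_of_eq ?_) (mul_norm_le_of_mem_topSpace S j hw)
    show S.singularValues j * ‖U w‖ = _
    rw [U.norm_map]

theorem volSq_isometry_comp (U : F →ₗᵢ[ℝ] G) (R : F →ₗ[ℝ] F) :
    volSq (U.toLinearMap ∘ₗ R) = volSq R := by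
  have h : LinearMap.adjoint U.toLinearMap ∘ₗ U.toLinearMap = LinearMap.id :=
    LinearMap.ext fun v => ext_inner_right ℝ fun w => by
      rw [LinearMap.comp_apply, LinearMap.adjoint_inner_left]
      exact U.inner_map_map v w
  rw [volSq_comp, show volSq U.toLinearMap = 1 by rw [volSq, h, LinearMap.det_id], one_mul]

variable {E : Type*} [NormedAddCommGroup E] [InnerProductSpace ℝ E] [FiniteDimensional ℝ E]

/-- The product of the `p` largest singular values. -/
def topProd (p : ℕ) (A : E →ₗ[ℝ] E) : ℝ := ∏ i ∈ Finset.range p, A.singularValues i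

theorem volSq_comp_isometry_le {p : ℕ} (A : E →ₗ[ℝ] E)
    (U : EuclideanSpace ℝ (Fin p) →ₗᵢ[ℝ] E) :
    volSq (A ∘ₗ U.toLinearMap) ≤ topProd p A ^ 2 := by
  rw [volSq_eq_prod, topProd, ← Finset.prod_pow,
    Fin.prod_univ_eq_prod_range (fun i => (A ∘ₗ U.toLinearMap).singularValues i ^ 2),
    finrank_euclideanSpace_fin]
  refine Finset.prod_le_prod (fun i _ => sq_nonneg _) fun i hi => ?_
  exact pow_le_pow_left₀ (LinearMap.singularValues_nonneg _ _) (singularValue_comp_isometry_le A U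
    ⟨i, by rw [finrank_euclideanSpace_fin]; exact Finset.mem_range.1 hi⟩) 2

theorem exists_isometry_volSq_eq {p : ℕ} (hp : p ≤ finrank ℝ E) (A : E →ₗ[ℝ] E) :
    ∃ U : EuclideanSpace ℝ (Fin p) →ₗᵢ[ℝ] E, volSq (A ∘ₗ U.toLinearMap) = topProd p A ^ 2 := by
  classical
  set b := svBasis A
  set e := EuclideanSpace.basisFun (Fin p) ℝ
  set L : EuclideanSpace ℝ (Fin p) →ₗ[ℝ] E :=
    e.toBasis.constr ℝ fun j => b (Fin.castLE hp j)
  have hLe : ∀ j, L (e j) = b (Fin.castLE hp j) := fun j => by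
    rw [← e.coe_toBasis]
    exact e.toBasis.constr_basis ℝ _ j
  have hon : Orthonormal ℝ (L ∘ e.toBasis) := by
    rw [show L ∘ e.toBasis = fun j => b (Fin.castLE hp j) from funext fun j => by
      rw [Function.comp_apply, e.coe_toBasis, hLe]]
    exact b.orthonormal.comp _ (Fin.castLE_injective hp)
  refine ⟨L.isometryOfOrthonormal (v := e.toBasis) (by rw [e.coe_toBasis]; exact e.orthonormal) hon,
    ?_⟩
  rw [LinearMap.isometryOfOrthonormal_toLinearMap, volSq,
    ← LinearMap.det_toMatrix e.toBasis]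
  have hdiag : LinearMap.toMatrix e.toBasis e.toBasis
      (LinearMap.adjoint (A ∘ₗ L) ∘ₗ (A ∘ₗ L)) =
      Matrix.diagonal fun j : Fin p => A.singularValues j ^ 2 := by
    ext j k
    rw [LinearMap.toMatrix_apply, e.coe_toBasis, OrthonormalBasis.coe_toBasis_repr_apply,
      e.repr_apply_apply, LinearMap.comp_apply, LinearMap.adjoint_inner_right,
      LinearMap.comp_apply, LinearMap.comp_apply, hLe, hLe, inner_map_svBasis,
      orthonormal_iff_ite.1 b.orthonormal, Matrix.diagonal_apply]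
    simp only [(Fin.castLE_injective hp).eq_iff, Fin.val_castLE]
    split <;> simp
  rw [hdiag, Matrix.det_diagonal, topProd, ← Finset.prod_pow,
    Fin.prod_univ_eq_prod_range (fun j => A.singularValues j ^ 2)]

theorem topProd_nonneg (p : ℕ) (A : E →ₗ[ℝ] E) : 0 ≤ topProd p A :=
  Finset.prod_nonneg fun _ _ => A.singularValues_nonneg _

/-- **Submultiplicativity.** -/
theorem topProd_comp_le {p : ℕ} (hp : p ≤ finrank ℝ E) {A : E →ₗ[ℝ] E}
    (hA : Function.Injective A) (B : E →ₗ[ℝ] E) :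
    topProd p (B ∘ₗ A) ≤ topProd p B * topProd p A := by
  obtain ⟨W, hW⟩ := exists_isometry_volSq_eq hp (B ∘ₗ A)
  set S := A ∘ₗ W.toLinearMap
  have hS : Function.Injective S := hA.comp W.injective
  have hrank : finrank ℝ (LinearMap.range S) = p := by
    rw [LinearMap.finrank_range_of_inj hS, finrank_euclideanSpace_fin]
  set f := (stdOrthonormalBasis ℝ (LinearMap.range S)).reindex (finCongr hrank)
  set U : EuclideanSpace ℝ (Fin p) →ₗᵢ[ℝ] E :=
    (LinearMap.range S).subtypeₗᵢ.comp f.repr.symm.toLinearIsometry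
  set R : EuclideanSpace ℝ (Fin p) →ₗ[ℝ] EuclideanSpace ℝ (Fin p) :=
    f.repr.toLinearEquiv.toLinearMap ∘ₗ S.rangeRestrict
  have hUR : U.toLinearMap ∘ₗ R = S := LinearMap.ext fun v => by
    show (f.repr.symm (f.repr (S.rangeRestrict v)) : E) = S v
    rw [LinearIsometryEquiv.symm_apply_apply]
    rfl
  refine (sq_le_sq₀ (topProd_nonneg _ _)
    (mul_nonneg (topProd_nonneg _ _) (topProd_nonneg _ _))).1 ?_
  have hfac : (B ∘ₗ A) ∘ₗ W.toLinearMap = (B ∘ₗ U.toLinearMap) ∘ₗ R := by
    rw [LinearMap.comp_assoc, LinearMap.comp_assoc, hUR]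
  rw [← hW, hfac, volSq_comp, mul_pow]
  refine mul_le_mul (volSq_comp_isometry_le B U) ?_ ?_ (sq_nonneg _)
  · rw [← volSq_isometry_comp U R, hUR]
    exact volSq_comp_isometry_le A W
  · rw [volSq_eq_prod]
    exact Finset.prod_nonneg fun i _ => sq_nonneg _

/-- The singular values are `1`-Lipschitz. -/
theorem singularValue_sub_le (A B : E →L[ℝ] E) (i : Fin (finrank ℝ E)) :
    (A : E →ₗ[ℝ] E).singularValues i - ‖A - B‖ ≤ (B : E →ₗ[ℝ] E).singularValues i := by
  refine le_singularValue _ i (topSpace (A : E →ₗ[ℝ] E) i) (finrank_topSpace _ i) fun w hw => ?_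
  have h1 := mul_norm_le_of_mem_topSpace _ i hw
  have h2 : ‖A w‖ ≤ ‖B w‖ + ‖(A - B) w‖ := by
    rw [sub_apply]
    calc ‖A w‖ = ‖B w + (A w - B w)‖ := by rw [add_sub_cancel]
      _ ≤ _ := norm_add_le _ _
  have h3 := (A - B).le_opNorm w
  rw [sub_mul]
  simp only [ContinuousLinearMap.coe_coe] at h1 ⊢
  linarith

theorem continuous_singularValue (i : ℕ) :
    Continuous fun A : E →L[ℝ] E => (A : E →ₗ[ℝ] E).singularValues i := by
  by_cases hi : i < finrank ℝ E
  · refine LipschitzWith.continuous (K := 1) (LipschitzWith.of_dist_le_mul fun A B => ?_)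
    rw [NNReal.coe_one, one_mul, Real.dist_eq, abs_le, dist_eq_norm]
    have h1 := singularValue_sub_le A B ⟨i, hi⟩
    have h2 := singularValue_sub_le B A ⟨i, hi⟩
    rw [norm_sub_rev] at h2
    constructor <;> linarith
  · simp only [LinearMap.singularValues_of_finrank_le _ (not_lt.1 hi)]
    exact continuous_const

theorem singularValue_le_norm (A : E →L[ℝ] E) (i : Fin (finrank ℝ E)) :
    (A : E →ₗ[ℝ] E).singularValues i ≤ ‖A‖ := by
  rw [← norm_map_svBasis]
  refine le_trans (A.le_opNorm _) (le_of_eq ?_)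
  rw [(svBasis _).orthonormal.1 i, mul_one]

theorem one_le_norm_inv_mul_singularValue {A B : E →L[ℝ] E} (h : B * A = 1)
    (i : Fin (finrank ℝ E)) : 1 ≤ ‖B‖ * (A : E →ₗ[ℝ] E).singularValues i := by
  rw [← norm_map_svBasis]
  refine le_trans (le_of_eq ?_) (B.le_opNorm _)
  show (1 : ℝ) = ‖(B * A) (svBasis (A : E →ₗ[ℝ] E) i)‖
  rw [h, one_apply_eq_self, (svBasis _).orthonormal.1 i]

theorem prod_singularValues_eq_abs_det (A : E →ₗ[ℝ] E) :
    topProd (finrank ℝ E) A = |LinearMap.det A| := by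
  refine (sq_eq_sq₀ (topProd_nonneg _ _) (abs_nonneg _)).1 ?_
  rw [sq_abs, topProd, ← Finset.prod_pow, ← Fin.prod_univ_eq_prod_range, ← volSq_eq_prod, volSq,
    LinearMap.det_comp, show LinearMap.det (LinearMap.adjoint A) = LinearMap.det A by
      rw [← LinearMap.det_toMatrix (stdOrthonormalBasis ℝ E).toBasis (LinearMap.adjoint A),
        LinearMap.toMatrix_adjoint, Matrix.det_conjTranspose, star_trivial,
        LinearMap.det_toMatrix], sq]

end FA.Oseledets
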