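import Fermat.Agent.Oseledets.Ruelle
import Fermat.Agent.Kingman.Cocycle
import Fermat.Agent.PointwiseErgodic.Birkhoff

/-!
# The multiplicative ergodic theorem

Kingman's theorem gives rates for the products of the largest singular values, hence for each
singular value, and Birkhoff's that single factors grow subexponentially; Ruelle's lemma applies.
-/

set_option autoImplicit false

noncomputable section

namespace FA.Oseledets

open Module Filter Topology MeasureTheory Finset
open Real (log posLog)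
open FA.Kingman (cocycleProd)

variable {E : Type*} [NormedAddCommGroup E] [InnerProductSpace ℝ E] [FiniteDimensional ℝ E]
  {α : Type*} {mα : MeasurableSpace α} {μ : Measure α} [IsProbabilityMeasure μ] {T : α → α}
  {A : α → (E →L[ℝ] E)ˣ}

/-- The cocycle as an operator. -/
abbrev cocycleOp (T : α → α) (A : α → (E →L[ℝ] E)ˣ) (n : ℕ) (x : α) : E →L[ℝ] E :=
  ((cocycleProd T A n x : (E →L[ℝ] E)ˣ) : E →L[ℝ] E)

/-- `log ‖A‖⁺ + log ‖A⁻¹‖⁺`. -/
def envelope (A : α → (E →L[ℝ] E)ˣ) (x : α) : ℝ :=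
  posLog ‖(A x : E →L[ℝ] E)‖ + posLog ‖(((A x)⁻¹ : (E →L[ℝ] E)ˣ) : E →L[ℝ] E)‖

omit [FiniteDimensional ℝ E] in
theorem injective_units (u : (E →L[ℝ] E)ˣ) : Function.Injective (u : E →L[ℝ] E) := fun v w h => by
  have h' := congrArg ((u⁻¹ : (E →L[ℝ] E)ˣ) : E →L[ℝ] E) h
  simpa only [← mul_apply_eq_comp, Units.inv_mul, one_apply_eq_self] using h'

theorem singularValue_pos (u : (E →L[ℝ] E)ˣ) (i : Fin (finrank ℝ E)) :
    0 < ((u : E →L[ℝ] E) : E →ₗ[ℝ] E).singularValues i :=
  (LinearMap.injective_iff_forall_lt_finrank_singularValues_pos _).1 (injective_units u) i i.2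

/-- The sum of the logarithms of the `p` largest singular values. -/
def logTop (p : ℕ) (u : (E →L[ℝ] E)ˣ) : ℝ :=
  ∑ i ∈ range p, log (((u : E →L[ℝ] E) : E →ₗ[ℝ] E).singularValues i)

theorem topProd_pos {p : ℕ} (hp : p ≤ finrank ℝ E) (u : (E →L[ℝ] E)ˣ) :
    0 < topProd p ((u : E →L[ℝ] E) : E →ₗ[ℝ] E) :=
  prod_pos fun i hi => singularValue_pos u ⟨i, (mem_range.1 hi).trans_le hp⟩

theorem logTop_eq {p : ℕ} (hp : p ≤ finrank ℝ E) (u : (E →L[ℝ] E)ˣ) :
    logTop p u = log (topProd p ((u : E →L[ℝ] E) : E →ₗ[ℝ] E)) := by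
  rw [logTop, topProd, Real.log_prod]
  exact fun i hi => (singularValue_pos u ⟨i, (mem_range.1 hi).trans_le hp⟩).ne'

theorem logTop_mul_le {p : ℕ} (hp : p ≤ finrank ℝ E) (u v : (E →L[ℝ] E)ˣ) :
    logTop p (u * v) ≤ logTop p u + logTop p v := by
  rw [logTop_eq hp, logTop_eq hp, logTop_eq hp,
    ← Real.log_mul (topProd_pos hp u).ne' (topProd_pos hp v).ne']
  exact Real.log_le_log (topProd_pos hp _)
    (topProd_comp_le hp (injective_units v) ((u : E →L[ℝ] E) : E →ₗ[ℝ] E))

theorem abs_logTop_cocycle_le [Nontrivial E] (p : ℕ) (hp : p ≤ finrank ℝ E) (n : ℕ) (x : α) :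
    |logTop p (cocycleProd T A n x)| ≤ p * birkhoffSum T (envelope A) n x := by
  set u := cocycleProd T A n x
  have hsplit : birkhoffSum T (envelope A) n x =
      birkhoffSum T (fun y => posLog ‖(A y : E →L[ℝ] E)‖) n x +
      birkhoffSum T (fun y => posLog ‖(((A y)⁻¹ : (E →L[ℝ] E)ˣ) : E →L[ℝ] E)‖) n x := by
    simp only [birkhoffSum, envelope, Finset.sum_add_distrib]
  have h1 := FA.Kingman.norm_cocycleProd_le T A n x
  have h2 := FA.Kingman.norm_cocycleProd_inv_le T A n x
  have b1 : 0 ≤ birkhoffSum T (fun y => posLog ‖(A y : E →L[ℝ] E)‖) n x :=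
    sum_nonneg fun i _ => Real.posLog_nonneg
  have b2 : 0 ≤ birkhoffSum T
      (fun y => posLog ‖(((A y)⁻¹ : (E →L[ℝ] E)ˣ) : E →L[ℝ] E)‖) n x :=
    sum_nonneg fun i _ => Real.posLog_nonneg
  refine (Finset.abs_sum_le_sum_abs _ _).trans ?_
  refine (Finset.sum_le_sum (g := fun _ => birkhoffSum T (envelope A) n x) fun i hi => ?_).trans
    (le_of_eq (by rw [sum_const, card_range, nsmul_eq_mul]))
  set j : Fin (finrank ℝ E) := ⟨i, (mem_range.1 hi).trans_le hp⟩
  have hs : 0 < ((u : E →L[ℝ] E) : E →ₗ[ℝ] E).singularValues i := singularValue_pos u j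
  have hup := Real.log_le_log hs (singularValue_le_norm (u : E →L[ℝ] E) j)
  have hlo := one_le_norm_inv_mul_singularValue u.inv_mul j
  have hlo' := Real.log_le_log one_pos hlo
  rw [Real.log_one, Real.log_mul (norm_ne_zero_iff.2 (Units.ne_zero _)) hs.ne'] at hlo'
  rw [abs_le, hsplit]
  constructor <;> linarith

theorem measurable_logTop_cocycle (hT : Measurable T) (hA : Measurable fun x => (A x : E →L[ℝ] E))
    [Nontrivial E] (p n : ℕ) : Measurable fun x => logTop p (cocycleProd T A n x) :=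
  Finset.measurable_sum _ fun i _ => Real.measurable_log.comp
    ((continuous_singularValue i).measurable.comp (FA.Kingman.measurable_cocycleProd hT hA n))

variable [Nontrivial E]

omit [IsProbabilityMeasure μ] in
theorem logTop_data (hT : MeasurePreserving T μ μ) (hA : Measurable fun x => (A x : E →L[ℝ] E))
    (hf : Integrable (envelope A) μ) {p : ℕ} (hp : p ≤ finrank ℝ E) :
    (∀ n, Measurable fun x => logTop p (cocycleProd T A n x)) ∧
      (∀ n, Integrable (fun x => logTop p (cocycleProd T A n x)) μ) ∧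
      (∀ m n x, logTop p (cocycleProd T A (m + n) x) ≤
        logTop p (cocycleProd T A m x) + logTop p (cocycleProd T A n (T^[m] x))) ∧
      ∀ n : ℕ, -((p : ℝ) * ∫ x, envelope A x ∂μ) * n ≤
        ∫ x, logTop p (cocycleProd T A n x) ∂μ := by
  have hi : ∀ n, Integrable (fun x => logTop p (cocycleProd T A n x)) μ := fun n =>
    ((FA.Kingman.integrable_birkhoffSum hT hf n).const_mul (p : ℝ)).mono'
      (measurable_logTop_cocycle hT.measurable hA p n).aestronglyMeasurable
      (.of_forall fun x => abs_logTop_cocycle_le p hp n x)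
  refine ⟨measurable_logTop_cocycle hT.measurable hA p, hi, fun m n x => ?_, fun n => ?_⟩
  · rw [FA.Kingman.cocycleProd_add, add_comm]
    exact logTop_mul_le hp _ _
  · rw [neg_mul, mul_assoc, mul_comm (∫ x, envelope A x ∂μ),
      ← FA.Kingman.integral_birkhoffSum hT hf, ← integral_const_mul, ← integral_neg]
    exact integral_mono ((FA.Kingman.integrable_birkhoffSum hT hf n).const_mul _).neg (hi n)
      fun x => (abs_le.1 (abs_logTop_cocycle_le p hp n x)).1

/-- An integrable function grows sublinearly along almost every orbit. -/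
theorem tendsto_iterate_div (hT : MeasurePreserving T μ μ) {f : α → ℝ} (hf : Integrable f μ) :
    ∀ᵐ x ∂μ, Tendsto (fun n : ℕ => f (T^[n] x) / n) atTop (𝓝 0) := by
  filter_upwards [FA.PointwiseErgodic.tendsto_average hT hf] with x hx
  set G := μ[f | MeasurableSpace.invariants T] x
  have h1 : Tendsto (fun n : ℕ => birkhoffSum T f n x / n) atTop (𝓝 G) :=
    hx.congr fun n => by rw [birkhoffAverage, smul_eq_mul, inv_mul_eq_div]
  have hratio : Tendsto (fun n : ℕ => ((n : ℝ) + 1) / n) atTop (𝓝 1) := by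
    have h : Tendsto (fun n : ℕ => 1 + 1 / (n : ℝ)) atTop (𝓝 1) := by
      simpa using (tendsto_one_div_atTop_nhds_zero_nat (𝕜 := ℝ)).const_add 1
    refine h.congr' ?_
    filter_upwards [eventually_gt_atTop 0] with n hn
    have : (n : ℝ) ≠ 0 := Nat.cast_ne_zero.2 hn.ne'
    field_simp
  have h2 := ((h1.comp (tendsto_add_atTop_nat 1)).mul hratio).sub h1
  rw [mul_one, sub_self] at h2
  refine h2.congr' ?_
  filter_upwards [eventually_gt_atTop 0] with n hn
  have : (n : ℝ) ≠ 0 := Nat.cast_ne_zero.2 hn.ne'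
  have : ((n : ℝ) + 1) ≠ 0 := by positivity
  simp only [Function.comp_apply, birkhoffSum_succ, Nat.cast_add, Nat.cast_one]
  field_simp
  ring

/-- **The exponents.** -/
theorem exists_exponents (hT : MeasurePreserving T μ μ) (hA : Measurable fun x => (A x : E →L[ℝ] E))
    (hf : Integrable (envelope A) μ) :
    ∃ l : α → Fin (finrank ℝ E) → ℝ, (∀ i, Integrable (fun x => l x i) μ) ∧
      (∀ i, (fun x => l x i) ∘ T =ᵐ[μ] fun x => l x i) ∧
      (∫ x, ∑ i, l x i ∂μ = ∫ x, log |LinearMap.det ((A x : E →L[ℝ] E) : E →ₗ[ℝ] E)| ∂μ) ∧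
      ∀ᵐ x ∂μ, Antitone (l x) ∧ RuelleData (fun n => (cocycleOp T A n x))
        (fun n => (A (T^[n] x) : E →L[ℝ] E))
        (fun n => (((A (T^[n] x))⁻¹ : (E →L[ℝ] E)ˣ) : E →L[ℝ] E)) (l x) := by
  have hK : ∀ p : Fin (finrank ℝ E + 1), ∃ G : α → ℝ, Integrable G μ ∧ G ∘ T =ᵐ[μ] G ∧
      (∀ᵐ x ∂μ, Tendsto (fun n : ℕ => logTop p (cocycleProd T A n x) / n) atTop (𝓝 (G x))) ∧
      Tendsto (fun n : ℕ => (∫ x, logTop p (cocycleProd T A n x) ∂μ) / n) atTop
        (𝓝 (∫ x, G x ∂μ)) := fun p => by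
    obtain ⟨hm, hi, hsub, hC⟩ := logTop_data hT hA hf (Nat.lt_succ_iff.1 p.2)
    obtain ⟨G, h1, h2, h3, h4, -⟩ := FA.Kingman.tendsto_subadditive hT hm hi hsub hC
    exact ⟨G, h1, h2, h3, h4⟩
  choose G hGi hGinv hGlim hGmean using hK
  refine ⟨fun x i => G i.succ x - G i.castSucc x, fun i => (hGi _).sub (hGi _), fun i => ?_, ?_, ?_⟩
  · filter_upwards [hGinv i.succ, hGinv i.castSucc] with x h1 h2
    simp only [Function.comp_apply] at h1 h2 ⊢
    rw [h1, h2]
  · have hsum : ∀ᵐ x ∂μ, ∑ i : Fin (finrank ℝ E), (G i.succ x - G i.castSucc x) =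
        G (Fin.last _) x := by
      filter_upwards [ae_all_iff.2 hGlim] with x hx
      have h0 : G 0 x = 0 := tendsto_nhds_unique (hx 0) (by simp [logTop])
      rw [Finset.sum_sub_distrib]
      have e1 := Fin.sum_univ_succ fun j => G j x
      have e2 := Fin.sum_univ_castSucc fun j => G j x
      rw [h0, zero_add] at e1
      linarith
    rw [integral_congr_ae hsum]
    refine tendsto_nhds_unique (hGmean _) ?_
    have hg : ∀ u : (E →L[ℝ] E)ˣ,
        logTop (finrank ℝ E) u = log |LinearMap.det ((u : E →L[ℝ] E) : E →ₗ[ℝ] E)| := fun u => by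
      rw [logTop_eq le_rfl, prod_singularValues_eq_abs_det]
    have hdetne : ∀ u : (E →L[ℝ] E)ˣ, |LinearMap.det ((u : E →L[ℝ] E) : E →ₗ[ℝ] E)| ≠ 0 :=
      fun u => by
        rw [← prod_singularValues_eq_abs_det]; exact (topProd_pos le_rfl u).ne'
    have hadd : ∀ n x, logTop (finrank ℝ E) (cocycleProd T A n x) =
        birkhoffSum T (fun y => log |LinearMap.det ((A y : E →L[ℝ] E) : E →ₗ[ℝ] E)|) n x := by
      intro n
      induction n with
      | zero => intro x; simp [hg, cocycleProd]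
      | succ n ih =>
        intro x
        rw [birkhoffSum_succ', ← ih, hg, hg, cocycleProd, Units.val_mul,
          ContinuousLinearMap.toLinearMap_mul, map_mul, abs_mul,
          Real.log_mul (hdetne _) (hdetne _), add_comm]
    have hint1 : Integrable (fun x => log |LinearMap.det ((A x : E →L[ℝ] E) : E →ₗ[ℝ] E)|) μ := by
      refine ((logTop_data hT hA hf le_rfl).2.1 1).congr (.of_forall fun x => ?_)
      show logTop (finrank ℝ E) (cocycleProd T A 1 x) = _
      rw [hadd, birkhoffSum_one]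
    refine (tendsto_const_nhds.congr' ?_)
    filter_upwards [eventually_gt_atTop 0] with n hn
    simp only [Fin.val_last, hadd, FA.Kingman.integral_birkhoffSum hT hint1]
    rw [mul_div_cancel_left₀ _ (Nat.cast_ne_zero.2 hn.ne')]
  · filter_upwards [ae_all_iff.2 hGlim, tendsto_iterate_div hT hf] with x hx hxf
    have hrate : ∀ i : Fin (finrank ℝ E), Tendsto (fun n : ℕ =>
        log (((cocycleOp T A n x) : E →ₗ[ℝ] E).singularValues i) / n) atTop
        (𝓝 (G i.succ x - G i.castSucc x)) := fun i =>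
      ((hx i.succ).sub (hx i.castSucc)).congr fun n => by
        rw [← sub_div, logTop, logTop, Fin.val_succ, Fin.val_castSucc, Finset.sum_range_succ,
          add_sub_cancel_left]
    refine ⟨fun i j hij => le_of_tendsto_of_tendsto' (hrate j) (hrate i) fun n => ?_, ?_⟩
    · refine div_le_div_of_nonneg_right (Real.log_le_log (singularValue_pos _ j) ?_)
        (Nat.cast_nonneg n)
      exact LinearMap.singularValues_antitone _ hij
    · refine ⟨fun n => ?_, fun n => (A (T^[n] x)).inv_mul, fun n i => singularValue_pos _ i,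
        fun η hη => ?_, hrate⟩
      · simp only [cocycleOp]
        rw [FA.Kingman.cocycleProd_add, Units.val_mul]
        simp [cocycleProd]
      · filter_upwards [hxf.eventually (eventually_le_nhds hη), eventually_gt_atTop 0] with n hn hn0
        rw [div_le_iff₀ (Nat.cast_pos.2 hn0), envelope] at hn
        constructor
        · refine (Real.le_exp_log _).trans (Real.exp_le_exp.2 ?_)
          have : log ‖(A (T^[n] x) : E →L[ℝ] E)‖ ≤ posLog ‖(A (T^[n] x) : E →L[ℝ] E)‖ :=
            le_max_right _ _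
          linarith [Real.posLog_nonneg (x := ‖(((A (T^[n] x))⁻¹ : (E →L[ℝ] E)ˣ) : E →L[ℝ] E)‖)]
        · refine (Real.le_exp_log _).trans (Real.exp_le_exp.2 ?_)
          have : log ‖(((A (T^[n] x))⁻¹ : (E →L[ℝ] E)ˣ) : E →L[ℝ] E)‖ ≤
              posLog ‖(((A (T^[n] x))⁻¹ : (E →L[ℝ] E)ˣ) : E →L[ℝ] E)‖ := le_max_right _ _
          linarith [Real.posLog_nonneg (x := ‖(A (T^[n] x) : E →L[ℝ] E)‖)]

omit [FiniteDimensional ℝ E] [Nontrivial E] in
/-- The rates along the orbit of `T x` are those along the orbit of `x`. -/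
theorem tendsto_shift_iff (x : α) (v : E) (c : ℝ) :
    Tendsto (fun n : ℕ => log ‖(cocycleOp T A n (T x)) ((A x : E →L[ℝ] E) v)‖ / n)
      atTop (𝓝 c) ↔
    Tendsto (fun n : ℕ => log ‖(cocycleOp T A n x) v‖ / n) atTop (𝓝 c) := by
  have key : ∀ n, (cocycleOp T A n (T x)) ((A x : E →L[ℝ] E) v) =
      (cocycleOp T A (n + 1) x) v := fun n => by
    show _ = ((cocycleProd T A n (T x) * A x : (E →L[ℝ] E)ˣ) : E →L[ℝ] E) v
    rw [Units.val_mul, mul_apply_eq_comp]
  simp only [key]
  set g := fun n : ℕ => log ‖(cocycleOp T A n x) v‖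
  have hratio : Tendsto (fun n : ℕ => ((n + 1 : ℕ) : ℝ) / n) atTop (𝓝 1) := by
    have h : Tendsto (fun n : ℕ => 1 + 1 / (n : ℝ)) atTop (𝓝 1) := by
      simpa using (tendsto_one_div_atTop_nhds_zero_nat (𝕜 := ℝ)).const_add 1
    refine h.congr' ?_
    filter_upwards [eventually_gt_atTop 0] with n hn
    have : (n : ℝ) ≠ 0 := Nat.cast_ne_zero.2 hn.ne'
    push_cast
    field_simp
  conv_rhs => rw [← tendsto_add_atTop_iff_nat 1]
  constructor
  · intro h
    have h' := h.div hratio one_ne_zero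
    rw [div_one] at h'
    refine h'.congr' ?_
    filter_upwards [eventually_gt_atTop 0] with n hn
    have : (n : ℝ) ≠ 0 := Nat.cast_ne_zero.2 hn.ne'
    simp only [Pi.div_apply]
    field_simp
  · intro h
    have h' := h.mul hratio
    rw [mul_one] at h'
    refine h'.congr' ?_
    filter_upwards [eventually_gt_atTop 0] with n hn
    have : (n : ℝ) ≠ 0 := Nat.cast_ne_zero.2 hn.ne'
    have : ((n + 1 : ℕ) : ℝ) ≠ 0 := Nat.cast_ne_zero.2 (Nat.succ_ne_zero n)
    field_simp

end FA.Oseledets
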