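import Fermat.Agent.Oseledets.Singular
import Mathlib.Analysis.SpecificLimits.Normed
import Mathlib.LinearAlgebra.Trace

/-!
# Ruelle's lemma

If the factors of a sequence of products grow subexponentially and the singular values of the
products have exponential rates `l`, the spans of the singular vectors with rate above `c` converge
exponentially fast, and the vectors orthogonal to the limit grow at most at the rate `c`.
-/

set_option autoImplicit false

noncomputable section

namespace FA.Oseledets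

open Module Finset Filter Topology
open scoped RealInnerProductSpace

variable {E : Type*} [NormedAddCommGroup E] [InnerProductSpace ℝ E] [FiniteDimensional ℝ E]

/-- The hypotheses of Ruelle's lemma. -/
structure RuelleData (Q x y : ℕ → E →L[ℝ] E) (l : Fin (finrank ℝ E) → ℝ) : Prop where
  succ : ∀ n, Q (n + 1) = x n * Q n
  left_inv : ∀ n, y n * x n = 1
  pos : ∀ n (i : Fin (finrank ℝ E)), 0 < (Q n : E →ₗ[ℝ] E).singularValues i
  small : ∀ η > 0, ∀ᶠ n : ℕ in atTop, ‖x n‖ ≤ Real.exp (η * n) ∧ ‖y n‖ ≤ Real.exp (η * n)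
  rate : ∀ i : Fin (finrank ℝ E),
    Tendsto (fun n : ℕ => Real.log ((Q n : E →ₗ[ℝ] E).singularValues i) / n) atTop
    (𝓝 (l i))

/-- The `i`-th singular vector of `Q n`. -/
def svec (Q : ℕ → E →L[ℝ] E) (n : ℕ) : OrthonormalBasis (Fin (finrank ℝ E)) ℝ E :=
  svBasis (Q n : E →ₗ[ℝ] E)

/-- The projection on the singular vectors with index in `S`. -/
def svProj (Q : ℕ → E →L[ℝ] E) (S : Finset (Fin (finrank ℝ E))) (n : ℕ) : E →L[ℝ] E :=
  ∑ i ∈ S, (innerSL ℝ (svec Q n i)).smulRight (svec Q n i)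

theorem svProj_apply (Q : ℕ → E →L[ℝ] E) (S : Finset (Fin (finrank ℝ E))) (n : ℕ) (v : E) :
    svProj Q S n v = ∑ i ∈ S, ⟪svec Q n i, v⟫ • svec Q n i := by
  simp [svProj]

theorem inner_svec_svProj (Q : ℕ → E →L[ℝ] E) (S : Finset (Fin (finrank ℝ E))) (n : ℕ)
    (i : Fin (finrank ℝ E)) (v : E) :
    ⟪svec Q n i, svProj Q S n v⟫ = if i ∈ S then ⟪svec Q n i, v⟫ else 0 := by
  rw [svProj_apply, inner_sum]
  simp only [real_inner_smul_right, orthonormal_iff_ite.1 (svec Q n).orthonormal i, mul_ite,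
    mul_one, mul_zero]
  exact Finset.sum_ite_eq S i _

theorem svProj_svProj (Q : ℕ → E →L[ℝ] E) (S T : Finset (Fin (finrank ℝ E))) (n : ℕ) (v : E) :
    svProj Q T n (svProj Q S n v) = svProj Q (T ∩ S) n v := by
  rw [svProj_apply, svProj_apply Q (T ∩ S)]
  simp only [inner_svec_svProj, ite_smul, zero_smul]
  rw [← Finset.sum_filter, Finset.filter_mem_eq_inter]

theorem svProj_univ (Q : ℕ → E →L[ℝ] E) (n : ℕ) : svProj Q univ n = 1 := by
  ext v
  rw [svProj_apply, one_apply_eq_self]
  exact (svec Q n).sum_repr' v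

theorem svProj_add_compl (Q : ℕ → E →L[ℝ] E) (S : Finset (Fin (finrank ℝ E))) (n : ℕ) (v : E) :
    svProj Q S n v + svProj Q Sᶜ n v = v := by
  rw [svProj_apply, svProj_apply, Finset.sum_add_sum_compl]
  exact (svec Q n).sum_repr' v

theorem abs_inner_svec_le (Q : ℕ → E →L[ℝ] E) (n : ℕ) (i : Fin (finrank ℝ E)) (v : E) :
    |⟪svec Q n i, v⟫| ≤ ‖v‖ := by
  simpa [(svec Q n).orthonormal.1 i] using abs_real_inner_le_norm (svec Q n i) v

theorem norm_svProj_le (Q : ℕ → E →L[ℝ] E) (S : Finset (Fin (finrank ℝ E))) (n : ℕ) (v : E) :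
    ‖svProj Q S n v‖ ≤ ∑ i ∈ S, |⟪svec Q n i, v⟫| := by
  rw [svProj_apply]
  refine (norm_sum_le _ _).trans (Finset.sum_le_sum fun i _ => ?_)
  rw [norm_smul, (svec Q n).orthonormal.1 i, mul_one, Real.norm_eq_abs]

theorem singularValue_mul_le (Q : ℕ → E →L[ℝ] E) (n : ℕ) (i : Fin (finrank ℝ E)) (v : E) :
    (Q n : E →ₗ[ℝ] E).singularValues i * |⟪svec Q n i, v⟫| ≤ ‖Q n v‖ := by
  refine (sq_le_sq₀ (mul_nonneg (LinearMap.singularValues_nonneg _ _) (abs_nonneg _))
    (norm_nonneg _)).1 ?_
  rw [mul_pow, sq_abs, show ‖Q n v‖ = ‖(Q n : E →ₗ[ℝ] E) v‖ from rfl, norm_sq_map]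
  exact Finset.single_le_sum (f := fun k : Fin (finrank ℝ E) =>
    (Q n : E →ₗ[ℝ] E).singularValues k ^ 2 * ⟪svBasis (Q n : E →ₗ[ℝ] E) k, v⟫ ^ 2)
    (fun k _ => mul_nonneg (sq_nonneg _) (sq_nonneg _)) (Finset.mem_univ i)

namespace RuelleData

variable {Q x y : ℕ → E →L[ℝ] E} {l : Fin (finrank ℝ E) → ℝ} (h : RuelleData Q x y l)

include h

theorem sv_bounds {η : ℝ} (hη : 0 < η) : ∀ᶠ n : ℕ in atTop, ∀ i : Fin (finrank ℝ E),
    Real.exp ((l i - η) * n) ≤ (Q n : E →ₗ[ℝ] E).singularValues i ∧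
      (Q n : E →ₗ[ℝ] E).singularValues i ≤ Real.exp ((l i + η) * n) := by
  refine eventually_all.2 fun i => ?_
  filter_upwards [(h.rate i).eventually
    (Icc_mem_nhds (sub_lt_self _ hη) (lt_add_of_pos_right _ hη)),
    eventually_gt_atTop 0] with n hn hn0
  obtain ⟨h1, h2⟩ := hn
  rw [le_div_iff₀ (Nat.cast_pos.2 hn0)] at h1
  rw [div_le_iff₀ (Nat.cast_pos.2 hn0)] at h2
  exact ⟨(Real.le_log_iff_exp_le (h.pos n i)).1 h1, (Real.log_le_iff_le_exp (h.pos n i)).1 h2⟩

/-- Singular vectors of neighbouring products are nearly orthogonal if their rates differ. -/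
theorem inner_bound {η : ℝ} (hη : 0 < η) : ∀ᶠ n : ℕ in atTop, ∀ i k : Fin (finrank ℝ E),
    |⟪svec Q n i, svec Q (n + 1) k⟫| ≤ Real.exp (-(|l i - l k| - η) * n) := by
  have h4 : 0 < η / 8 := by positivity
  filter_upwards [h.sv_bounds h4, (tendsto_add_atTop_nat 1).eventually (h.sv_bounds h4),
    h.small _ h4, eventually_all.2 fun k : Fin (finrank ℝ E) =>
      (tendsto_natCast_atTop_atTop.const_mul_atTop h4).eventually
        (eventually_ge_atTop (|l k| + η / 8))] with n hn hn1 hxy hbig i k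
  set a := |⟪svec Q n i, svec Q (n + 1) k⟫| with ha
  have hnorm : ∀ (m : ℕ) (j : Fin (finrank ℝ E)),
      ‖Q m (svec Q m j)‖ = (Q m : E →ₗ[ℝ] E).singularValues j :=
    fun m j => norm_map_svBasis (Q m : E →ₗ[ℝ] E) j
  have hyQ : Q n = y n * Q (n + 1) := by rw [h.succ, ← mul_assoc, h.left_inv, one_mul]
  -- from the lower bound at time `n`
  have b1 : a ≤ Real.exp (-(l i - l k - η) * n) := by
    have e1 : Real.exp ((l i - η / 8) * n) * a ≤
        Real.exp (η / 8 * n) * Real.exp ((l k + η / 8) * (n + 1 : ℕ)) := by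
      calc Real.exp ((l i - η / 8) * n) * a
          ≤ (Q n : E →ₗ[ℝ] E).singularValues i * a :=
            mul_le_mul_of_nonneg_right (hn i).1 (abs_nonneg _)
        _ ≤ ‖Q n (svec Q (n + 1) k)‖ := singularValue_mul_le Q n i _
        _ ≤ ‖y n‖ * ‖Q (n + 1) (svec Q (n + 1) k)‖ := by
            rw [hyQ, mul_apply_eq_comp]; exact (y n).le_opNorm _
        _ ≤ _ := by
            rw [hnorm]
            exact mul_le_mul hxy.2 (hn1 k).2 (LinearMap.singularValues_nonneg _ _)
              (Real.exp_pos _).le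
    rw [← Real.exp_add, mul_comm, ← le_div_iff₀ (Real.exp_pos _), ← Real.exp_sub] at e1
    refine e1.trans (Real.exp_le_exp.2 ?_)
    have := le_abs_self (l k)
    push_cast
    nlinarith [hbig k]
  -- from the lower bound at time `n + 1`
  have b2 : a ≤ Real.exp (-(l k - l i - η) * n) := by
    have e1 : Real.exp ((l k - η / 8) * (n + 1 : ℕ)) * a ≤
        Real.exp (η / 8 * n) * Real.exp ((l i + η / 8) * n) := by
      calc Real.exp ((l k - η / 8) * (n + 1 : ℕ)) * a
          ≤ (Q (n + 1) : E →ₗ[ℝ] E).singularValues k * a :=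
            mul_le_mul_of_nonneg_right (hn1 k).1 (abs_nonneg _)
        _ ≤ ‖Q (n + 1) (svec Q n i)‖ := by
            rw [ha, real_inner_comm]; exact singularValue_mul_le Q (n + 1) k _
        _ ≤ ‖x n‖ * ‖Q n (svec Q n i)‖ := by
            rw [h.succ, mul_apply_eq_comp]; exact (x n).le_opNorm _
        _ ≤ _ := by
            rw [hnorm]
            exact mul_le_mul hxy.1 (hn i).2 (LinearMap.singularValues_nonneg _ _)
              (Real.exp_pos _).le
    rw [← Real.exp_add, mul_comm, ← le_div_iff₀ (Real.exp_pos _), ← Real.exp_sub] at e1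
    refine e1.trans (Real.exp_le_exp.2 ?_)
    have := neg_abs_le (l k)
    push_cast
    nlinarith [hbig k]
  rcases le_total (l k) (l i) with hik | hik
  · rwa [abs_of_nonneg (sub_nonneg.2 hik)]
  · rw [abs_of_nonpos (sub_nonpos.2 hik)]
    convert b2 using 3
    ring

/-- The rates above `c`. -/
def above (_h : RuelleData Q x y l) (c : ℝ) : Finset (Fin (finrank ℝ E)) :=
  univ.filter fun i => c < l i

theorem mem_above {c : ℝ} {i : Fin (finrank ℝ E)} : i ∈ h.above c ↔ c < l i := by
  simp [above]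

/-- The projections on the fast singular vectors converge. -/
theorem exists_limit (c : ℝ) :
    ∃ H : E →L[ℝ] E, Tendsto (svProj Q (h.above c)) atTop (𝓝 H) := by
  classical
  set S := h.above c with hSdef
  obtain ⟨δ, hδ, hgap⟩ : ∃ δ > 0, ∀ i ∈ S, ∀ k, k ∉ S → δ ≤ |l i - l k| := by
    rcases (S ×ˢ Sᶜ).eq_empty_or_nonempty with he | hne
    · exact ⟨1, one_pos, fun i hi k hk => absurd
        (Finset.mem_product.2 ⟨hi, Finset.mem_compl.2 hk⟩ : (i, k) ∈ S ×ˢ Sᶜ) (by simp [he])⟩
    · obtain ⟨p, hp, hmin⟩ := (S ×ˢ Sᶜ).exists_min_image (fun p => |l p.1 - l p.2|) hne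
      obtain ⟨hp1, hp2⟩ := Finset.mem_product.1 hp
      rw [Finset.mem_compl, hSdef, h.mem_above] at hp2
      rw [hSdef, h.mem_above] at hp1
      refine ⟨_, abs_pos.2 (sub_ne_zero.2 ((not_lt.1 hp2).trans_lt hp1).ne'), fun i hi k hk => ?_⟩
      exact hmin (i, k) (Finset.mem_product.2 ⟨hi, Finset.mem_compl.2 hk⟩)
  obtain ⟨N, hN⟩ := eventually_atTop.1 (h.inner_bound (half_pos hδ))
  set r := Real.exp (-(δ / 2)) with hr
  have hr1 : r < 1 := Real.exp_lt_one_iff.2 (by linarith)
  set D := (2 : ℝ) * (finrank ℝ E) * (finrank ℝ E)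
  have hstep : ∀ n, N ≤ n → ‖svProj Q S n - svProj Q S (n + 1)‖ ≤ D * r ^ n := by
    intro n hn
    have hK : ∀ i k, (i ∈ S ∧ k ∉ S) ∨ (i ∉ S ∧ k ∈ S) →
        |⟪svec Q n i, svec Q (n + 1) k⟫| ≤ r ^ n := fun i k hik => by
      refine (hN n hn i k).trans ?_
      rw [hr, ← Real.exp_nat_mul]
      refine Real.exp_le_exp.2 ?_
      have hd : δ ≤ |l i - l k| := by
        rcases hik with ⟨a, b⟩ | ⟨a, b⟩
        · exact hgap i a k b
        · rw [abs_sub_comm]; exact hgap k b i a
      nlinarith [(Nat.cast_nonneg n : (0 : ℝ) ≤ n)]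
    refine ContinuousLinearMap.opNorm_le_bound _ (by positivity) fun v => ?_
    have hsplit : (svProj Q S n - svProj Q S (n + 1)) v =
        svProj Q S n (svProj Q Sᶜ (n + 1) v) - svProj Q Sᶜ n (svProj Q S (n + 1) v) := by
      rw [sub_apply]
      have e1 := svProj_add_compl Q S n (svProj Q S (n + 1) v)
      have e2 : svProj Q S n v = svProj Q S n (svProj Q S (n + 1) v) +
          svProj Q S n (svProj Q Sᶜ (n + 1) v) := by
        rw [← map_add, svProj_add_compl]
      rw [e2]
      nth_rw 2 [← e1]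
      abel
    have hcross : ∀ A B : Finset (Fin (finrank ℝ E)), (∀ i ∈ A, ∀ k ∈ B,
        (i ∈ S ∧ k ∉ S) ∨ (i ∉ S ∧ k ∈ S)) →
        ‖svProj Q A n (svProj Q B (n + 1) v)‖ ≤
          (finrank ℝ E : ℝ) * (finrank ℝ E) * r ^ n * ‖v‖ := by
      intro A B hAB
      refine (norm_svProj_le Q A n _).trans ?_
      calc ∑ i ∈ A, |⟪svec Q n i, svProj Q B (n + 1) v⟫|
          ≤ ∑ i ∈ A, ∑ k ∈ B, r ^ n * ‖v‖ := by
            refine Finset.sum_le_sum fun i hi => ?_
            rw [svProj_apply, inner_sum]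
            refine (Finset.abs_sum_le_sum_abs _ _).trans (Finset.sum_le_sum fun k hk => ?_)
            rw [real_inner_smul_right, abs_mul, mul_comm (r ^ n)]
            exact mul_le_mul (abs_inner_svec_le Q (n + 1) k v) (hK i k (hAB i hi k hk))
              (abs_nonneg _) (norm_nonneg _)
        _ ≤ _ := by
            simp only [Finset.sum_const, nsmul_eq_mul]
            have h0 : 0 ≤ r ^ n * ‖v‖ := by positivity
            have hA : (#A : ℝ) ≤ finrank ℝ E := by
              exact_mod_cast (card_le_univ A).trans_eq (Fintype.card_fin _)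
            have hB : (#B : ℝ) ≤ finrank ℝ E := by
              exact_mod_cast (card_le_univ B).trans_eq (Fintype.card_fin _)
            rw [mul_assoc _ (r ^ n), mul_assoc (finrank ℝ E : ℝ)]
            exact mul_le_mul hA (mul_le_mul_of_nonneg_right hB h0) (by positivity) (by positivity)
    rw [hsplit]
    refine (norm_sub_le _ _).trans ?_
    have c1 := hcross S Sᶜ fun i hi k hk => Or.inl ⟨hi, Finset.mem_compl.1 hk⟩
    have c2 := hcross Sᶜ S fun i hi k hk => Or.inr ⟨Finset.mem_compl.1 hi, hk⟩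
    simp only [D]
    linarith
  have hc : CauchySeq fun m => svProj Q S (m + N) :=
    cauchySeq_of_le_geometric r (D * r ^ N) hr1 fun m => by
      rw [dist_eq_norm, Nat.add_right_comm]
      refine (hstep (m + N) (Nat.le_add_left N m)).trans (le_of_eq ?_)
      rw [pow_add]
      ring
  obtain ⟨H, hH⟩ := cauchySeq_tendsto_of_complete hc
  exact ⟨H, (tendsto_add_atTop_iff_nat N).1 hH⟩

/-- The projection on the limit of the fast subspaces. -/
def limProj (c : ℝ) : E →L[ℝ] E := (h.exists_limit c).choose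

theorem tendsto_svProj (c : ℝ) : Tendsto (svProj Q (h.above c)) atTop (𝓝 (h.limProj c)) :=
  (h.exists_limit c).choose_spec

theorem tendsto_svProj_apply (c : ℝ) (v : E) :
    Tendsto (fun n => svProj Q (h.above c) n v) atTop (𝓝 (h.limProj c v)) :=
  ((ContinuousLinearMap.apply ℝ E v).continuous.tendsto _).comp (h.tendsto_svProj c)

/-- The vectors which grow at most at the rate `c`. -/
def slowSpace (c : ℝ) : Submodule ℝ E := LinearMap.ker (h.limProj c : E →ₗ[ℝ] E)

theorem mem_slowSpace {c : ℝ} {v : E} : v ∈ h.slowSpace c ↔ h.limProj c v = 0 := Iff.rfl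

theorem slowSpace_congr {c c' : ℝ} (he : h.above c = h.above c') :
    h.slowSpace c = h.slowSpace c' := by
  have e := tendsto_nhds_unique (h.tendsto_svProj c) (he ▸ h.tendsto_svProj c')
  simp only [slowSpace, e]

theorem slowSpace_mono {c c' : ℝ} (hcc : c ≤ c') : h.slowSpace c ≤ h.slowSpace c' := fun v hv => by
  rw [h.mem_slowSpace] at hv ⊢
  have hsub : h.above c' ⊆ h.above c := fun i hi =>
    h.mem_above.2 (hcc.trans_lt (h.mem_above.1 hi))
  have h1 : Tendsto (fun n => svProj Q (h.above c') n (svProj Q (h.above c) n v)) atTop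
      (𝓝 (h.limProj c' (h.limProj c v))) :=
    ((isBoundedBilinearMap_apply (𝕜 := ℝ) (E := E) (F := E)).continuous.tendsto _).comp
      ((h.tendsto_svProj c').prodMk_nhds (h.tendsto_svProj_apply c v))
  simp only [svProj_svProj, Finset.inter_eq_left.2 hsub] at h1
  rw [tendsto_nhds_unique (h.tendsto_svProj_apply c' v) h1, hv, map_zero]

theorem finrank_slowSpace (c : ℝ) :
    finrank ℝ (h.slowSpace c) = (univ.filter fun i => l i ≤ c).card := by
  set H := h.limProj c with hH
  set S := h.above c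
  have hidem : ∀ v, H (H v) = H v := fun v => by
    have h1 : Tendsto (fun n => svProj Q S n (svProj Q S n v)) atTop (𝓝 (H (H v))) :=
      ((isBoundedBilinearMap_apply (𝕜 := ℝ) (E := E) (F := E)).continuous.tendsto _).comp
        ((h.tendsto_svProj c).prodMk_nhds (h.tendsto_svProj_apply c v))
    simp only [svProj_svProj, Finset.inter_self] at h1
    exact tendsto_nhds_unique h1 (h.tendsto_svProj_apply c v)
  have hproj : LinearMap.IsProj (LinearMap.range (H : E →ₗ[ℝ] E)) (H : E →ₗ[ℝ] E) :=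
    ⟨fun v => LinearMap.mem_range_self _ v, fun v hv => by
      obtain ⟨w, rfl⟩ := hv
      exact hidem w⟩
  have htr : LinearMap.trace ℝ E (H : E →ₗ[ℝ] E) = (#S : ℝ) := by
    have hn : ∀ n, LinearMap.trace ℝ E (svProj Q S n : E →ₗ[ℝ] E) = (#S : ℝ) := fun n => by
      rw [LinearMap.trace_eq_matrix_trace ℝ (svec Q n).toBasis, Matrix.trace]
      simp only [Matrix.diag_apply, LinearMap.toMatrix_apply, (svec Q n).coe_toBasis,
        OrthonormalBasis.coe_toBasis_repr_apply, OrthonormalBasis.repr_apply_apply,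
        ContinuousLinearMap.coe_coe, inner_svec_svProj, real_inner_self_eq_norm_sq,
        (svec Q n).orthonormal.1 _]
      simp [Finset.sum_ite_mem]
    have hcont : Continuous fun A : E →L[ℝ] E => LinearMap.trace ℝ E (A : E →ₗ[ℝ] E) :=
      ((LinearMap.trace ℝ E) ∘ₗ ContinuousLinearMap.coeLM ℝ).continuous_of_finiteDimensional
    exact tendsto_nhds_unique ((hcont.tendsto _).comp (h.tendsto_svProj c))
      (by simp [Function.comp_def, hn, S])
  have hr : finrank ℝ (LinearMap.range (H : E →ₗ[ℝ] E)) = #S := by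
    exact_mod_cast (hproj.trace.symm.trans htr)
  have hrk := (H : E →ₗ[ℝ] E).finrank_range_add_finrank_ker
  rw [hr] at hrk
  show finrank ℝ (LinearMap.ker (H : E →ₗ[ℝ] E)) = _
  have hpart := Finset.card_filter_add_card_filter_not (s := (univ : Finset (Fin (finrank ℝ E))))
    (fun i => c < l i)
  simp only [not_lt, Finset.card_univ, Fintype.card_fin] at hpart
  have : #S = (univ.filter fun i => c < l i).card := rfl
  omega

/-- A slow vector is nearly orthogonal to each fast singular vector. -/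
theorem coeff_decay {c : ℝ} {v : E} (hv : v ∈ h.slowSpace c) :
    ∀ i, c < l i → ∀ η > 0, ∀ᶠ n : ℕ in atTop,
      |⟪svec Q n i, v⟫| ≤ Real.exp (-(l i - c - η) * n) := by
  classical
  suffices hm : ∀ (m : ℕ) i, (univ.filter fun k => l k < l i).card = m → c < l i → ∀ η > 0,
      ∀ᶠ n : ℕ in atTop, |⟪svec Q n i, v⟫| ≤ Real.exp (-(l i - c - η) * n) from
    fun i => hm _ i rfl
  intro m
  induction m using Nat.strong_induction_on with
  | _ m ih =>
  intro i hi hci η hη
  rcases lt_or_ge (l i - c) η with hlt | hbigη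
  · -- the bound is trivial here
    filter_upwards [(tendsto_natCast_atTop_atTop.const_mul_atTop
      (sub_pos.2 hlt : 0 < η - (l i - c))).eventually (eventually_ge_atTop ‖v‖)] with n hn
    refine (abs_inner_svec_le Q n i v).trans (hn.trans (le_trans ?_ (Real.add_one_le_exp _)))
    linarith
  set α := l i - c - η / 2 with hα
  have hα0 : 0 < α := by rw [hα]; linarith
  -- the rates at least `l i`
  obtain ⟨c₁, hc₁, hc₁i, hT⟩ : ∃ c₁, c ≤ c₁ ∧ c₁ < l i ∧
      ∀ k, k ∈ h.above c₁ ↔ l i ≤ l k := by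
    set W := insert c ((univ.filter fun k => l k < l i).image l)
    have hW : ∀ w ∈ W, w < l i := fun w hw => by
      rcases Finset.mem_insert.1 hw with rfl | hw
      · exact hci
      · obtain ⟨k, hk, rfl⟩ := Finset.mem_image.1 hw
        exact (Finset.mem_filter.1 hk).2
    refine ⟨W.max' ⟨c, Finset.mem_insert_self _ _⟩, Finset.le_max' _ _ (Finset.mem_insert_self _ _),
      hW _ (Finset.max'_mem _ _), fun k => ?_⟩
    rw [h.mem_above]
    refine ⟨fun hk => ?_, fun hk => (hW _ (Finset.max'_mem _ _)).trans_le hk⟩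
    by_contra hlt
    exact absurd hk (not_lt.2 (Finset.le_max' W (l k) (Finset.mem_insert_of_mem
      (Finset.mem_image_of_mem l (Finset.mem_filter.2 ⟨mem_univ _, not_le.1 hlt⟩)))))
  set T := h.above c₁ with hTdef
  have hmid : ∀ᶠ n : ℕ in atTop, ∀ k, c < l k → l k < l i →
      |⟪svec Q (n + 1) k, v⟫| ≤ Real.exp (-(l k - c - η / 8) * (n + 1 : ℕ)) := by
    refine eventually_all.2 fun k => ?_
    by_cases hk : c < l k ∧ l k < l i
    · have hlt : (univ.filter fun j => l j < l k).card < m := hi ▸ Finset.card_lt_card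
        ⟨fun j hj => Finset.mem_filter.2 ⟨mem_univ _, (Finset.mem_filter.1 hj).2.trans hk.2⟩,
          fun hs => lt_irrefl (l k)
            (Finset.mem_filter.1 (hs (Finset.mem_filter.2 ⟨mem_univ k, hk.2⟩))).2⟩
      exact ((tendsto_add_atTop_nat 1).eventually
        (ih _ hlt k rfl hk.1 (η / 8) (by positivity))).mono fun n hn _ _ => hn
    · exact .of_forall fun n h1 h2 => absurd ⟨h1, h2⟩ hk
  set M := ‖v‖ + 1 with hM
  have hM0 : 0 < M := by positivity
  set D := (finrank ℝ E : ℝ) * (finrank ℝ E) * M with hD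
  have hrec : ∀ᶠ n : ℕ in atTop, ‖svProj Q T n v‖ ≤
      ‖svProj Q T (n + 1) v‖ + D * Real.exp (-α * n) := by
    filter_upwards [hmid, h.inner_bound (η := η / 8) (by positivity), eventually_ge_atTop 1]
      with n hn hK hn1
    have hsplit : svProj Q T n v = svProj Q T n (svProj Q T (n + 1) v) +
        svProj Q T n (svProj Q Tᶜ (n + 1) v) := by
      rw [← map_add, svProj_add_compl]
    rw [hsplit]
    refine (norm_add_le _ _).trans (add_le_add ?_ ?_)
    · refine (sq_le_sq₀ (norm_nonneg _) (norm_nonneg _)).1 ?_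
      rw [← (svec Q n).sum_sq_inner_right, ← (svec Q n).sum_sq_inner_right (svProj Q T (n + 1) v)]
      refine Finset.sum_le_sum fun j _ => ?_
      rw [inner_svec_svProj]
      split
      · rfl
      · simp [sq_nonneg]
    refine (norm_svProj_le Q T n _).trans ?_
    calc ∑ j ∈ T, |⟪svec Q n j, svProj Q Tᶜ (n + 1) v⟫|
        ≤ ∑ j ∈ T, ∑ k ∈ Tᶜ, M * Real.exp (-α * n) := by
          refine Finset.sum_le_sum fun j hj => ?_
          rw [svProj_apply, inner_sum]
          refine (Finset.abs_sum_le_sum_abs _ _).trans (Finset.sum_le_sum fun k hk => ?_)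
          have hk' : l k < l i := not_le.1 fun hle => Finset.mem_compl.1 hk ((hT k).2 hle)
          have hj' : l i ≤ l j := (hT j).1 hj
          have hn0 : (0 : ℝ) ≤ n := Nat.cast_nonneg n
          rw [real_inner_smul_right, abs_mul, mul_comm]
          rcases le_or_gt (l k) c with hkc | hkc
          · refine (mul_le_mul ((hK j k).trans (Real.exp_le_exp.2 (?_ : _ ≤ -α * (n : ℝ))))
              ((abs_inner_svec_le Q (n + 1) k v).trans (le_add_of_nonneg_right zero_le_one))
              (abs_nonneg _) (Real.exp_pos _).le).trans_eq (mul_comm _ _)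
            rw [abs_of_nonneg (sub_nonneg.2 (hk'.le.trans hj'))]
            exact mul_le_mul_of_nonneg_right (by rw [hα]; linarith) hn0
          · refine (mul_le_mul (hK j k) (hn k hkc hk') (abs_nonneg _) (Real.exp_pos _).le).trans ?_
            rw [← Real.exp_add]
            have hp : 0 < l k - c := sub_pos.2 hkc
            refine le_trans (Real.exp_le_exp.2 ?_) (le_mul_of_one_le_left (Real.exp_pos _).le
              (le_add_of_nonneg_left (norm_nonneg v)))
            have hn1' : (1 : ℝ) ≤ n := Nat.one_le_cast.2 hn1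
            rw [abs_of_nonneg (sub_nonneg.2 (hk'.le.trans hj')), hα]
            push_cast
            nlinarith
      _ ≤ D * Real.exp (-α * n) := by
          simp only [Finset.sum_const, nsmul_eq_mul]
          have hA : (#T : ℝ) ≤ finrank ℝ E := by
            exact_mod_cast (card_le_univ T).trans_eq (Fintype.card_fin _)
          have hB : (#Tᶜ : ℝ) ≤ finrank ℝ E := by
            exact_mod_cast (card_le_univ Tᶜ).trans_eq (Fintype.card_fin _)
          rw [hD, mul_assoc, mul_assoc]
          exact mul_le_mul hA (mul_le_mul_of_nonneg_right hB (by positivity)) (by positivity)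
            (by positivity)
  have hzero : Tendsto (fun n => ‖svProj Q T n v‖) atTop (𝓝 0) := by
    have hv0 : h.limProj c₁ v = 0 := h.mem_slowSpace.1 (h.slowSpace_mono hc₁ hv)
    simpa [hv0] using (h.tendsto_svProj_apply c₁ v).norm
  obtain ⟨N, hN⟩ := eventually_atTop.1 hrec
  set q := Real.exp (-α) with hq
  have hq1 : q < 1 := Real.exp_lt_one_iff.2 (by linarith)
  have hqpow : ∀ n : ℕ, Real.exp (-α * n) = q ^ n := fun n => by
    rw [hq, ← Real.exp_nat_mul, mul_comm]
  have htel : ∀ n ≥ N, ∀ r : ℕ, ‖svProj Q T n v‖ ≤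
      ‖svProj Q T (n + r) v‖ + D * q ^ n * ∑ s ∈ range r, q ^ s := by
    intro n hn r
    induction r with
    | zero => simp
    | succ r ihr =>
      have hs := hN (n + r) (hn.trans (Nat.le_add_right n r))
      rw [hqpow] at hs
      refine ihr.trans (le_trans (add_le_add hs le_rfl) (le_of_eq ?_))
      rw [Finset.sum_range_succ, pow_add, ← Nat.add_assoc]
      ring
  have hmain : ∀ n ≥ N, ‖svProj Q T n v‖ ≤ D * q ^ n * (1 / (1 - q)) := by
    intro n hn
    have hlim : Tendsto (fun r => ‖svProj Q T (n + r) v‖ + D * q ^ n * ∑ s ∈ range r, q ^ s)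
        atTop (𝓝 (0 + D * q ^ n * (1 / (1 - q)))) := by
      rw [one_div]
      exact ((tendsto_add_atTop_iff_nat n).2 hzero |>.congr fun r => by rw [add_comm n r]).add
        ((hasSum_geometric_of_lt_one (Real.exp_pos _).le hq1).tendsto_sum_nat.const_mul _)
    rw [zero_add] at hlim
    exact ge_of_tendsto' hlim (htel n hn)
  filter_upwards [eventually_ge_atTop N, (tendsto_natCast_atTop_atTop.const_mul_atTop
    (half_pos hη)).eventually (eventually_ge_atTop (D * (1 / (1 - q))))] with n hn hn2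
  have hiT : i ∈ T := (hT i).2 le_rfl
  calc |⟪svec Q n i, v⟫| ≤ ‖svProj Q T n v‖ := by
        have := abs_inner_svec_le Q n i (svProj Q T n v)
        rwa [inner_svec_svProj, if_pos hiT] at this
    _ ≤ D * (1 / (1 - q)) * q ^ n := (hmain n hn).trans_eq (by ring)
    _ ≤ Real.exp (η / 2 * n) * Real.exp (-α * n) := by
        rw [hqpow]
        exact mul_le_mul_of_nonneg_right (hn2.trans (le_trans (le_add_of_nonneg_right zero_le_one)
          (Real.add_one_le_exp _))) (pow_nonneg (Real.exp_pos _).le n)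
    _ = _ := by rw [← Real.exp_add, hα]; ring_nf

theorem eventually_norm_le {c : ℝ} {v : E} (hv : v ∈ h.slowSpace c) {η : ℝ} (hη : 0 < η) :
    ∀ᶠ n : ℕ in atTop, ‖Q n v‖ ≤ Real.exp ((c + η) * n) := by
  have h4 : 0 < η / 4 := by positivity
  have hco : ∀ᶠ n : ℕ in atTop, ∀ i, c < l i →
      |⟪svec Q n i, v⟫| ≤ Real.exp (-(l i - c - η / 4) * n) :=
    eventually_all.2 fun i => if hi : c < l i then
      (h.coeff_decay hv i hi _ h4).mono fun n hn _ => hn
    else .of_forall fun n hi' => absurd hi' hi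
  set M := ‖v‖ + 1 with hM
  filter_upwards [h.sv_bounds h4, hco, (tendsto_natCast_atTop_atTop.const_mul_atTop
    h4).eventually (eventually_ge_atTop ((finrank ℝ E : ℝ) * M))] with n hs hc' hbig
  have hn0 : (0 : ℝ) ≤ n := Nat.cast_nonneg n
  have hM1 : 1 ≤ M := le_add_of_nonneg_left (norm_nonneg v)
  calc ‖Q n v‖ = ‖∑ i, ⟪svec Q n i, v⟫ • Q n (svec Q n i)‖ := by
        simp only [← map_smul, ← map_sum, (svec Q n).sum_repr' v]
    _ ≤ ∑ _i : Fin (finrank ℝ E), M * Real.exp ((c + η / 2) * n) := by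
        refine (norm_sum_le _ _).trans (Finset.sum_le_sum fun i _ => ?_)
        rw [norm_smul, Real.norm_eq_abs,
          show ‖Q n (svec Q n i)‖ = (Q n : E →ₗ[ℝ] E).singularValues i from
            norm_map_svBasis (Q n : E →ₗ[ℝ] E) i]
        refine (mul_le_mul_of_nonneg_left (hs i).2 (abs_nonneg _)).trans ?_
        rcases lt_or_ge c (l i) with hi | hi
        · refine (mul_le_mul_of_nonneg_right (hc' i hi) (Real.exp_pos _).le).trans ?_
          rw [← Real.exp_add]
          refine le_trans (Real.exp_le_exp.2 (le_of_eq ?_))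
            (le_mul_of_one_le_left (Real.exp_pos _).le hM1)
          ring
        · refine mul_le_mul ((abs_inner_svec_le Q n i v).trans (le_add_of_nonneg_right zero_le_one))
            (Real.exp_le_exp.2 (mul_le_mul_of_nonneg_right (by linarith) hn0))
            (Real.exp_pos _).le (by positivity)
    _ = (finrank ℝ E : ℝ) * M * Real.exp ((c + η / 2) * n) := by
        rw [Finset.sum_const, card_univ, Fintype.card_fin, nsmul_eq_mul]; ring
    _ ≤ Real.exp (η / 4 * n) * Real.exp ((c + η / 2) * n) :=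
        mul_le_mul_of_nonneg_right (hbig.trans (le_trans (le_add_of_nonneg_right zero_le_one)
          (Real.add_one_le_exp _))) (Real.exp_pos _).le
    _ ≤ _ := by
        rw [← Real.exp_add]
        exact Real.exp_le_exp.2 (by nlinarith)

theorem eventually_le_norm {c : ℝ} {v : E} (hv : v ∉ h.slowSpace c) :
    ∃ c' > c, ∀ᶠ n : ℕ in atTop, Real.exp (c' * n) ≤ ‖Q n v‖ := by
  classical
  rw [h.mem_slowSpace] at hv
  set S := h.above c with hS
  have hne : S.Nonempty := Finset.nonempty_iff_ne_empty.2 fun he => hv (by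
    refine tendsto_nhds_unique (h.tendsto_svProj_apply c v) ?_
    simp [← hS, he, svProj_apply])
  obtain ⟨i₀, hi₀, hmin⟩ := S.exists_min_image l hne
  have hi₀' : c < l i₀ := h.mem_above.1 hi₀
  set η := (l i₀ - c) / 4 with hη
  have hη0 : 0 < η := by rw [hη]; linarith
  refine ⟨l i₀ - 2 * η, by rw [hη]; linarith, ?_⟩
  set M := ‖h.limProj c v‖ / 2 with hM
  have hM0 : 0 < M := half_pos (norm_pos_iff.2 hv)
  filter_upwards [h.sv_bounds hη0,
    (h.tendsto_svProj_apply c v).norm.eventually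
      (eventually_ge_nhds (show M < ‖h.limProj c v‖ by rw [hM]; linarith [norm_pos_iff.2 hv])),
    (tendsto_natCast_atTop_atTop.const_mul_atTop hη0).eventually
      (eventually_ge_atTop (1 / M))] with n hs hpr hbig
  have hkey : Real.exp ((l i₀ - η) * n) * ‖svProj Q S n v‖ ≤ ‖Q n v‖ := by
    refine (sq_le_sq₀ (by positivity) (norm_nonneg _)).1 ?_
    rw [mul_pow, ← (svec Q n).sum_sq_inner_right (svProj Q S n v), mul_sum,
      show ‖Q n v‖ = ‖(Q n : E →ₗ[ℝ] E) v‖ from rfl, norm_sq_map]
    refine Finset.sum_le_sum fun j _ => ?_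
    rw [inner_svec_svProj]
    split
    · refine mul_le_mul_of_nonneg_right (pow_le_pow_left₀ (Real.exp_pos _).le ?_ 2) (sq_nonneg _)
      refine le_trans (Real.exp_le_exp.2 (mul_le_mul_of_nonneg_right ?_ (Nat.cast_nonneg n)))
        (hs j).1
      linarith [hmin j ‹_›]
    · rw [zero_pow two_ne_zero, mul_zero]
      exact mul_nonneg (sq_nonneg _) (sq_nonneg _)
  refine le_trans ?_ hkey
  have hexp : Real.exp (-(η * n)) ≤ M := by
    rw [Real.exp_neg, inv_le_comm₀ (Real.exp_pos _) hM0, ← one_div]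
    exact hbig.trans ((le_add_of_nonneg_right zero_le_one).trans (Real.add_one_le_exp _))
  refine le_trans ?_ (mul_le_mul_of_nonneg_left (hexp.trans hpr) (Real.exp_pos _).le)
  rw [← Real.exp_add]
  exact Real.exp_le_exp.2 (by ring_nf; rfl)

/-- **Ruelle's lemma**: every vector has a rate, one of the `l i`. -/
theorem exists_rate {v : E} (hv : v ≠ 0) :
    ∃ i, Tendsto (fun n : ℕ => Real.log ‖Q n v‖ / n) atTop (𝓝 (l i)) ∧
      ∀ c : ℝ, v ∈ h.slowSpace c ↔ l i ≤ c := by
  classical
  have hd : 0 < finrank ℝ E := by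
    have : Nontrivial E := ⟨⟨v, 0, hv⟩⟩
    exact finrank_pos
  have : Nonempty (Fin (finrank ℝ E)) := ⟨⟨0, hd⟩⟩
  have hbot : ∀ c : ℝ, (∀ i, c < l i) → v ∉ h.slowSpace c := fun c hc hmem => by
    rw [h.mem_slowSpace] at hmem
    have hall : h.above c = univ := Finset.filter_true_of_mem fun i _ => hc i
    refine hv ((tendsto_nhds_unique (h.tendsto_svProj_apply c v) ?_).symm.trans hmem)
    simp only [hall, svProj_univ, one_apply_eq_self]
    exact tendsto_const_nhds
  set J := univ.filter fun i => v ∈ h.slowSpace (l i) with hJ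
  have hJne : J.Nonempty := by
    obtain ⟨i, -, hi⟩ := (univ : Finset (Fin (finrank ℝ E))).exists_max_image l univ_nonempty
    refine ⟨i, Finset.mem_filter.2 ⟨mem_univ _, h.mem_slowSpace.2 ?_⟩⟩
    have hemp : h.above (l i) = ∅ :=
      Finset.filter_false_of_mem fun k _ => not_lt.2 (hi k (mem_univ k))
    refine tendsto_nhds_unique (h.tendsto_svProj_apply _ v) ?_
    simp [hemp, svProj_apply]
  obtain ⟨i, hiJ, hmin⟩ := J.exists_min_image l hJne
  have hiV : v ∈ h.slowSpace (l i) := (Finset.mem_filter.1 hiJ).2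
  have hiff : ∀ c : ℝ, v ∈ h.slowSpace c ↔ l i ≤ c := fun c => by
    refine ⟨fun hc => ?_, fun hc => h.slowSpace_mono hc hiV⟩
    by_contra hlt
    obtain ⟨j₀, hj₀⟩ : ∃ j, l j ≤ c := by
      by_contra hno
      push Not at hno
      exact hbot c hno hc
    obtain ⟨j, hj, hjmax⟩ := (univ.filter fun j => l j ≤ c).exists_max_image l
      ⟨j₀, Finset.mem_filter.2 ⟨mem_univ _, hj₀⟩⟩
    have hjc : l j ≤ c := (Finset.mem_filter.1 hj).2
    have he : h.above c = h.above (l j) := by
      ext k
      rw [h.mem_above, h.mem_above]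
      refine ⟨fun hk => hjc.trans_lt hk, fun hk => not_le.1 fun hkc => ?_⟩
      exact absurd hk (not_lt.2 (hjmax k (Finset.mem_filter.2 ⟨mem_univ _, hkc⟩)))
    rw [h.slowSpace_congr he] at hc
    exact hlt ((hmin j (Finset.mem_filter.2 ⟨mem_univ _, hc⟩)).trans hjc)
  have hQpos : ∀ n, 0 < ‖Q n v‖ := fun n => by
    refine norm_pos_iff.2 fun hz => hv ?_
    exact ((Q n : E →ₗ[ℝ] E).injective_iff_forall_lt_finrank_singularValues_pos.2
      fun k hk => h.pos n ⟨k, hk⟩) (by rw [map_zero]; exact hz)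
  refine ⟨i, tendsto_order.2 ⟨fun a ha => ?_, fun a ha => ?_⟩, hiff⟩
  · obtain ⟨c', hc', hev⟩ := h.eventually_le_norm (mt (hiff a).1 (not_le.2 ha))
    filter_upwards [hev, eventually_gt_atTop 0] with n hn hn0
    rw [lt_div_iff₀ (Nat.cast_pos.2 hn0)]
    exact (mul_lt_mul_of_pos_right hc' (Nat.cast_pos.2 hn0)).trans_le
      ((Real.le_log_iff_exp_le (hQpos n)).2 hn)
  · filter_upwards [h.eventually_norm_le hiV (half_pos (sub_pos.2 ha)), eventually_gt_atTop 0]
      with n hn hn0
    rw [div_lt_iff₀ (Nat.cast_pos.2 hn0)]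
    exact ((Real.log_le_iff_le_exp (hQpos n)).2 hn).trans_lt
      (mul_lt_mul_of_pos_right (by linarith) (Nat.cast_pos.2 hn0))

end RuelleData

end FA.Oseledets
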